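import Fermat.Agent.FLAT.Desc.Star
import Fermat.Agent.Common.PlaceBridgeLocal

/-!
# FLAT / [DESC-TEICH]

* `exists_teichmuller` : a root of unity `ζ` of order `ℓ ^ d - 1`, fixed by inertia, with
  `φ ζ = ζ ^ ℓ`, whose conjugates `ζ ^ (ℓ ^ a)`, `a < d`, are pairwise incongruent mod `𝔪_A`
  (`Bridge.valuation_sub_one_eq_one`: a root of unity `≠ 1` of order prime to `ℓ` is not `≡ 1`;
  so two roots of unity of order prime to `ℓ` which are congruent are equal; apply this to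
  `ι ζ, ζ` and to `φ ζ, ζ ^ ℓ`).
* `exists_lift_inertia_fixed` : every element of `A` is congruent mod `𝔪_A` to an element of `A`
  fixed by inertia (`0` or a root of unity of order prime to `ℓ`: the residue class `ā ≠ 0` is
  algebraic over `𝔽_ℓ`, so `ā ^ m = 1` with `m = ℓ ^ d - 1`; `X ^ m - 1 = ∏ (X - ζ^i)` over `A`, so
  `∏ (a - ζ^i) ∈ 𝔪_A`).
-/

set_option autoImplicit false

noncomputable section

namespace Fermat.Agent.FLAT

open NumberField IsDedekindDomain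

variable {ℓ : ℕ} [Fact ℓ.Prime] {A : ValuationSubring Qb}

theorem coprime_pow_sub_one (d : ℕ) (hd : 0 < d) : Nat.Coprime ℓ (ℓ ^ d - 1) := by
  have hℓ : ℓ.Prime := Fact.out
  rw [Nat.Prime.coprime_iff_not_dvd hℓ]
  intro h
  have h1 : ℓ ∣ ℓ ^ d := dvd_pow_self ℓ hd.ne'
  have h2 : ℓ ^ d = (ℓ ^ d - 1) + 1 := (Nat.sub_add_cancel (Nat.one_le_pow _ _ hℓ.pos)).symm
  rw [h2] at h1
  exact hℓ.one_lt.ne' (Nat.dvd_one.mp ((Nat.dvd_add_right h).mp h1))

/-- distinct roots of unity of order prime to `ℓ` are incongruent. -/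
theorem valuation_sub_eq_one_of_ne (hA : A.LiesOverPrime ℓ) {m : ℕ} (hm : Nat.Coprime ℓ m)
    {μ ν : Qb} (hμ : μ ^ m = 1) (hν : ν ^ m = 1) (h : μ ≠ ν) : A.valuation (μ - ν) = 1 := by
  have hℓ : ℓ.Prime := Fact.out
  have hm0 : m ≠ 0 := by
    rintro rfl
    rw [Nat.coprime_zero_right] at hm
    exact hℓ.one_lt.ne' hm
  have hν0 : ν ≠ 0 := by
    rintro rfl
    rw [zero_pow hm0] at hν
    exact zero_ne_one hν
  have h1 : (μ / ν) ^ m = 1 := by rw [div_pow, hμ, hν, div_one]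
  have h2 : μ / ν ≠ 1 := by
    intro h3
    exact h ((div_eq_one_iff_eq hν0).mp h3)
  have h3 := Bridge.valuation_sub_one_eq_one hA hℓ hm h1 h2
  have h4 : μ - ν = (μ / ν - 1) * ν := by field_simp
  rw [h4, map_mul, h3, one_mul, Bridge.valuation_eq_one_of_pow_eq_one hm0 hν]

theorem eq_of_valuation_sub_lt_one (hA : A.LiesOverPrime ℓ) {m : ℕ} (hm : Nat.Coprime ℓ m)
    {μ ν : Qb} (hμ : μ ^ m = 1) (hν : ν ^ m = 1) (h : A.valuation (μ - ν) < 1) : μ = ν := by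
  by_contra hne
  exact h.ne (valuation_sub_eq_one_of_ne hA hm hμ hν hne)

/-- roots of unity of order prime to `ℓ` are fixed by inertia. -/
theorem inertia_apply_eq_of_pow_eq_one (hA : A.LiesOverPrime ℓ) {m : ℕ} (hm : Nat.Coprime ℓ m)
    {μ : Qb} (hμ : μ ^ m = 1) {ι : GQ} (hι : ι ∈ A.inertiaSubgroupIn ℚ) : ι μ = μ := by
  have hℓ : ℓ.Prime := Fact.out
  have hm0 : m ≠ 0 := by
    rintro rfl
    rw [Nat.coprime_zero_right] at hm
    exact hℓ.one_lt.ne' hm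
  refine eq_of_valuation_sub_lt_one hA hm (by rw [← map_pow, hμ, map_one]) hμ ?_
  exact Bridge.valuation_sub_lt_one_of_mem_inertia hι
    (Bridge.valuation_eq_one_of_pow_eq_one hm0 hμ).le

omit [Fact ℓ.Prime] in
/-- a Frobenius element acts as `x ↦ x ^ ℓ` modulo the maximal ideal. -/
theorem valuation_frobenius_sub_pow_lt_one {φ : GQ} (hφ : A.IsFrobeniusAt φ ℓ) {x : Qb}
    (hx : x ∈ A) : A.valuation (φ x - x ^ ℓ) < 1 := by
  obtain ⟨hD, h⟩ := hφ
  have h2 := h (IsLocalRing.residue A ⟨x, hx⟩)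
  have h3 : IsLocalRing.residue A ((⟨φ, hD⟩ : A.decompositionSubgroup ℚ) • (⟨x, hx⟩ : A)) =
      IsLocalRing.residue A ((⟨x, hx⟩ : A) ^ ℓ) := by
    rw [map_pow, ← h2]; rfl
  have h4 : ((⟨φ, hD⟩ : A.decompositionSubgroup ℚ) • (⟨x, hx⟩ : A)) - (⟨x, hx⟩ : A) ^ ℓ ∈
      IsLocalRing.maximalIdeal A := by
    rw [← IsLocalRing.residue_eq_zero_iff, map_sub, h3, sub_self]
  exact (A.valuation_lt_one_iff _).1 h4

/-- **[TEICH]** -/
theorem exists_teichmuller (hA : A.LiesOverPrime ℓ) {φ : GQ} (hφ : A.IsFrobeniusAt φ ℓ)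
    (d : ℕ) (hd : 0 < d) :
    ∃ ζ : Qb, ζ ^ (ℓ ^ d - 1) = 1 ∧ (∀ ι ∈ A.inertiaSubgroupIn ℚ, ι ζ = ζ) ∧ φ ζ = ζ ^ ℓ ∧
      ∀ a b : ℕ, a < d → b < d → a ≠ b → A.valuation (ζ ^ (ℓ ^ a) - ζ ^ (ℓ ^ b)) = 1 := by
  have hℓ : ℓ.Prime := Fact.out
  set m := ℓ ^ d - 1 with hm
  have hcop : Nat.Coprime ℓ m := coprime_pow_sub_one d hd
  have hm0 : m ≠ 0 := by
    intro h
    rw [h, Nat.coprime_zero_right] at hcop
    exact hℓ.one_lt.ne' hcop
  have : NeZero ((m : ℕ) : ℚ) := ⟨by exact_mod_cast hm0⟩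
  have : NeZero m := ⟨hm0⟩
  obtain ⟨ζ, hζ⟩ := HasEnoughRootsOfUnity.exists_primitiveRoot Qb m
  have h1 : ζ ^ m = 1 := hζ.pow_eq_one
  refine ⟨ζ, h1, fun ι hι => inertia_apply_eq_of_pow_eq_one hA hcop h1 hι, ?_, ?_⟩
  · refine eq_of_valuation_sub_lt_one hA hcop (by rw [← map_pow, h1, map_one])
      (by rw [← pow_mul, mul_comm, pow_mul, h1, one_pow]) ?_
    exact valuation_frobenius_sub_pow_lt_one hφ
      ((A.valuation_le_one_iff _).mp (Bridge.valuation_eq_one_of_pow_eq_one hm0 h1).le)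
  · intro a b ha hb hab
    refine valuation_sub_eq_one_of_ne hA hcop (by rw [← pow_mul, mul_comm, pow_mul, h1, one_pow])
      (by rw [← pow_mul, mul_comm, pow_mul, h1, one_pow]) ?_
    intro h
    have hd2 : 2 ≤ d := by omega
    have hlt : ∀ c : ℕ, c < d → ℓ ^ c < m := by
      intro c hc
      have h2 : ℓ ^ c ≤ ℓ ^ (d - 1) := Nat.pow_le_pow_right hℓ.pos (by omega)
      have h3 : ℓ ^ d = ℓ * ℓ ^ (d - 1) := by
        rw [← pow_succ']
        congr 1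
        omega
      have h4 : 2 ≤ ℓ ^ (d - 1) := by
        calc 2 ≤ ℓ := hℓ.two_le
          _ = ℓ ^ 1 := (pow_one ℓ).symm
          _ ≤ ℓ ^ (d - 1) := Nat.pow_le_pow_right hℓ.pos (by omega)
      have h5 : 2 * ℓ ^ (d - 1) ≤ ℓ * ℓ ^ (d - 1) := Nat.mul_le_mul_right _ hℓ.two_le
      omega
    have h6 := hζ.pow_inj (hlt a ha) (hlt b hb) h
    exact hab (Nat.pow_right_injective hℓ.two_le h6)

theorem exists_lift_inertia_fixed (hA : A.LiesOverPrime ℓ) {a : Qb} (ha : a ∈ A) :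
    ∃ c : Qb, c ∈ A ∧ A.valuation (a - c) < 1 ∧ ∀ ι ∈ A.inertiaSubgroupIn ℚ, ι c = c := by
  classical
  have hℓ : ℓ.Prime := Fact.out
  have hfin : FiniteDimensional ℚ (IntermediateField.adjoin ℚ ({a} : Set Qb)) :=
    IntermediateField.finiteDimensional_adjoin
      (fun x _ => (Algebra.IsAlgebraic.isAlgebraic x).isIntegral)
  obtain ⟨N, _, _, _, ψ, hψ⟩ :=
    Bridge.exists_galois_model (IntermediateField.adjoin ℚ ({a} : Set Qb))
  obtain ⟨x, rfl⟩ := hψ a (IntermediateField.subset_adjoin _ _ (by simp))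
  set w := Bridge.placeBelow ψ hℓ A hA with hwdef
  have hw : w.asIdeal = Bridge.primeBelow ψ A := rfl
  set P : Ideal (𝓞 N) := Bridge.primeBelow ψ A with hP
  obtain ⟨y, hy⟩ := w.exists_valuation_sub_lt_of_integer (K := N)
    ((Bridge.valuation_le_one_iff hw).mp ((A.valuation_le_one_iff _).mpr ha)) 1
  have hy' : A.valuation (ψ x - ψ (y : N)) < 1 := by
    have h8 : A.valuation (ψ (algebraMap (𝓞 N) N y - x)) < 1 :=
      (Bridge.valuation_lt_one_iff hw).mpr (by simpa using hy)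
    rw [← map_sub, ← neg_sub, map_neg, Valuation.map_neg]
    exact h8
  by_cases hyP : y ∈ P
  · refine ⟨0, A.zero_mem, ?_, fun ι _ => map_zero ι⟩
    have h1 : A.valuation (ψ (y : N)) < 1 := Bridge.valuation_int_lt_one_iff.mpr hyP
    have h2 : ψ x - 0 = (ψ x - ψ (y : N)) + ψ (y : N) := by ring
    rw [h2]
    exact lt_of_le_of_lt (A.valuation.map_add _ _) (max_lt hy' h1)
  have hmax : P.IsMaximal :=
    Bridge.isMaximal_of_natCast_mem hℓ P (Bridge.natCast_mem_primeBelow ψ hA)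
  let _ : Field (𝓞 N ⧸ P) := Ideal.Quotient.field P
  have hfin : Finite (𝓞 N ⧸ P) :=
    Ideal.finiteQuotientOfFreeOfNeBot _ (Bridge.primeBelow_ne_bot hℓ hA)
  have := Fintype.ofFinite (𝓞 N ⧸ P)
  have hchar : CharP (𝓞 N ⧸ P) ℓ := by
    rw [CharP.charP_iff_prime_eq_zero hℓ]
    have := Ideal.Quotient.eq_zero_iff_mem.mpr (Bridge.natCast_mem_primeBelow ψ hA)
    simpa using this
  obtain ⟨d, -, hd⟩ := FiniteField.card (𝓞 N ⧸ P) ℓ
  have hy0 : Ideal.Quotient.mk P y ≠ 0 := fun h => hyP (Ideal.Quotient.eq_zero_iff_mem.mp h)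
  have h1 := FiniteField.pow_card_sub_one_eq_one _ hy0
  rw [hd] at h1
  set m := ℓ ^ (d : ℕ) - 1 with hm
  have hcop : Nat.Coprime ℓ m := coprime_pow_sub_one d d.pos
  have hm0 : m ≠ 0 := by
    intro h
    rw [h, Nat.coprime_zero_right] at hcop
    exact hℓ.one_lt.ne' hcop
  have h2 : y ^ m - 1 ∈ P := by
    rw [← Ideal.Quotient.eq, map_pow, h1, map_one]
  have h3 : A.valuation (ψ (y : N) ^ m - 1) < 1 := by
    have := Bridge.valuation_int_lt_one_iff.mpr h2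
    simpa using this
  have : NeZero ((m : ℕ) : ℚ) := ⟨by exact_mod_cast hm0⟩
  have : NeZero m := ⟨hm0⟩
  obtain ⟨ζ, hζ⟩ := HasEnoughRootsOfUnity.exists_primitiveRoot Qb m
  have hprod : ψ (y : N) ^ m - 1 = ∏ i ∈ Finset.range m, (ψ (y : N) - ζ ^ i) := by
    have h4 := X_pow_sub_C_eq_prod hζ (Nat.pos_of_ne_zero hm0) (one_pow m : (1 : Qb) ^ m = 1)
    have h5 := congrArg (Polynomial.eval (ψ (y : N))) h4
    simpa [Polynomial.eval_prod] using h5
  have hex : ∃ i ∈ Finset.range m, A.valuation (ψ (y : N) - ζ ^ i) < 1 := by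
    by_contra hno
    push Not at hno
    have h6 : (1 : A.ValueGroup) ≤ ∏ i ∈ Finset.range m, A.valuation (ψ (y : N) - ζ ^ i) :=
      Finset.one_le_prod' (fun i hi => hno i hi)
    rw [hprod, map_prod] at h3
    exact absurd h3 (not_lt.mpr h6)
  obtain ⟨i, -, hi⟩ := hex
  have hζi : (ζ ^ i) ^ m = 1 := by rw [← pow_mul, mul_comm, pow_mul, hζ.pow_eq_one, one_pow]
  refine ⟨ζ ^ i, (A.valuation_le_one_iff _).mp (Bridge.valuation_eq_one_of_pow_eq_one hm0 hζi).le,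
    ?_, fun ι hι => inertia_apply_eq_of_pow_eq_one hA hcop hζi hι⟩
  have h7 : ψ x - ζ ^ i = (ψ x - ψ (y : N)) + (ψ (y : N) - ζ ^ i) := by ring
  rw [h7]
  exact lt_of_le_of_lt (A.valuation.map_add _ _) (max_lt hy' hi)

end Fermat.Agent.FLAT
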