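import Fermat.Agent.FLAT.Desc.Star
import Fermat.Agent.Common.PlaceBridgeLocal

/-!
# FLAT / [DESC-FROB]

* `exists_frobenius` : a Frobenius element at `A` (see `Fermat/Agent/S54/Frobenius.lean`,
  `Bridge.exists_lift_frobenius`).
* `exists_decomp_factor` ([DGEN]) : modulo any open subgroup, `D_A` is generated by `I_A` and a
  Frobenius.  (Finite level: `L'` = normal closure; `Bridge.res`, `Bridge.map_res_inertia`,
  `Bridge.res_mem_stabilizer`; the Galois group of a finite field is generated by Frobenius.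
  Alternative: `τ` acts on the finite residue field `k_L'` as `Frob ^ n`; then `τ φ^(-n)` restricted to
  `L'` lies in the inertia group of `L'`, which is the image of `I_A`.)
-/

set_option autoImplicit false

noncomputable section

namespace Fermat.Agent.FLAT

open NumberField
open scoped Pointwise

/-- a ring endomorphism of a finite field of characteristic `p` is a power of the Frobenius. -/
theorem exists_pow_frobenius_of_finite (k : Type*) [Field k] [Finite k] (p : ℕ) [CharP k p]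
    (f : k →+* k) : ∃ n : ℕ, ∀ x, f x = x ^ (p ^ n) := by
  have hp : Fact p.Prime := ⟨CharP.char_is_prime k p⟩
  let _ : Algebra (ZMod p) k := ZMod.algebra k p
  have hcomm : ∀ r : ZMod p, f (algebraMap (ZMod p) k r) = algebraMap (ZMod p) k r := fun r => by
    have : f.comp (algebraMap (ZMod p) k) = algebraMap (ZMod p) k := Subsingleton.elim _ _
    exact congrArg (fun g : ZMod p →+* k => g r) this
  let f' : k →ₐ[ZMod p] k := { f with commutes' := hcomm }
  obtain ⟨n, hn⟩ := (FiniteField.bijective_frobeniusAlgHom_pow (ZMod p) k).2 f'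
  refine ⟨n.1, fun x => ?_⟩
  have h1 : f x = f' x := rfl
  rw [h1, ← hn]
  simp only [AlgHom.coe_pow, FiniteField.coe_frobeniusAlgHom, pow_iterate, ZMod.card]

variable {ℓ : ℕ} [Fact ℓ.Prime] {A : ValuationSubring Qb}

theorem exists_frobenius (hA : A.LiesOverPrime ℓ) : ∃ φ : GQ, A.IsFrobeniusAt φ ℓ :=
  S54.exists_isFrobeniusAt_of_liesOverPrime Fact.out A hA

/-- **[DGEN]** -/
theorem exists_decomp_factor (hA : A.LiesOverPrime ℓ) {φ : GQ} (hφ : A.IsFrobeniusAt φ ℓ)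
    (L : IntermediateField ℚ Qb) [FiniteDimensional ℚ L] {τ : GQ}
    (hτ : τ ∈ A.decompositionSubgroup ℚ) :
    ∃ (n : ℕ) (ι : GQ) (u : GQ), ι ∈ A.inertiaSubgroupIn ℚ ∧ (∀ y ∈ L, u y = y) ∧
      τ = ι * u * φ ^ n := by
  have hℓ : ℓ.Prime := Fact.out
  obtain ⟨N, _, _, _, ψ, hψ⟩ := Bridge.exists_galois_model L
  set P : Ideal (𝓞 N) := Bridge.primeBelow ψ A with hP
  have hmax : P.IsMaximal :=
    Bridge.isMaximal_of_natCast_mem hℓ P (Bridge.natCast_mem_primeBelow ψ hA)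
  let _ : Field (𝓞 N ⧸ P) := Ideal.Quotient.field P
  have hfin : Finite (𝓞 N ⧸ P) := Ideal.finiteQuotientOfFreeOfNeBot _ (Bridge.primeBelow_ne_bot hℓ hA)
  have hchar : CharP (𝓞 N ⧸ P) ℓ := by
    rw [CharP.charP_iff_prime_eq_zero hℓ]
    have := Ideal.Quotient.eq_zero_iff_mem.mpr (Bridge.natCast_mem_primeBelow ψ hA)
    simpa using this
  -- the automorphism of the residue field induced by `τ`
  have hst := Bridge.res_mem_stabilizer (φ := ψ) hτ
  set τ' := Bridge.res ψ τ with hτ'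
  set φ' := Bridge.res ψ φ with hφ'
  have hle : P ≤ P.comap (MulSemiringAction.toRingHom (N ≃ₐ[ℚ] N) (𝓞 N) τ') := by
    intro c hc
    rw [Ideal.mem_comap]
    have h1 : τ' • P = P := hst
    rw [← h1]
    exact Ideal.smul_mem_pointwise_smul τ' c P hc
  obtain ⟨n, hn⟩ := exists_pow_frobenius_of_finite (𝓞 N ⧸ P) ℓ (Ideal.quotientMap P _ hle)
  have hn' : ∀ c : 𝓞 N, τ' • c - c ^ (ℓ ^ n) ∈ P := by
    intro c
    have := hn (Ideal.Quotient.mk P c)
    rw [Ideal.quotientMap_mk, ← map_pow, Ideal.Quotient.eq] at this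
    exact this
  have hfr : ∀ (m : ℕ) (c : 𝓞 N), (φ' ^ m) • c - c ^ (ℓ ^ m) ∈ P := by
    have h1 := Bridge.res_isArithFrobAt (φ := ψ) hℓ hA hφ
    have h1' : ∀ c : 𝓞 N, φ' • c - c ^ ℓ ∈ P := by
      intro c
      have := h1 c
      rw [Bridge.card_quot_under hℓ hA] at this
      exact this
    intro m
    induction m with
    | zero => intro c; simp
    | succ m ih =>
      intro c
      have h2 := ih (φ' • c)
      have h3 : (φ' • c) ^ (ℓ ^ m) - (c ^ ℓ) ^ (ℓ ^ m) ∈ P :=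
        Ideal.mem_of_dvd _ (sub_dvd_pow_sub_pow _ _ _) (h1' c)
      have h4 : (φ' ^ (m + 1)) • c - c ^ (ℓ ^ (m + 1)) =
          ((φ' ^ m) • (φ' • c) - (φ' • c) ^ (ℓ ^ m)) + ((φ' • c) ^ (ℓ ^ m) - (c ^ ℓ) ^ (ℓ ^ m)) := by
        rw [pow_succ φ', mul_smul, ← pow_mul, pow_succ' ℓ m]
        ring
      rw [h4]
      exact P.add_mem h2 h3
  have hin : τ' * (φ' ^ n)⁻¹ ∈ P.inertia (N ≃ₐ[ℚ] N) := by
    intro c
    have h1 := hn' ((φ' ^ n)⁻¹ • c)
    have h2 := hfr n ((φ' ^ n)⁻¹ • c)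
    rw [smul_inv_smul] at h2
    have h3 : (τ' * (φ' ^ n)⁻¹) • c - c =
        (τ' • ((φ' ^ n)⁻¹ • c) - ((φ' ^ n)⁻¹ • c) ^ (ℓ ^ n)) - (c - ((φ' ^ n)⁻¹ • c) ^ (ℓ ^ n)) := by
      rw [mul_smul]; ring
    rw [h3]
    exact P.sub_mem h1 h2
  obtain ⟨ι, hι, hιr⟩ := Bridge.exists_lift_of_mem_inertia hℓ hA hin
  have hιr' : Bridge.res ψ ι = τ' * (φ' ^ n)⁻¹ := (Bridge.res_eq_iff ψ).mpr hιr
  refine ⟨n, ι, ι⁻¹ * τ * (φ ^ n)⁻¹, hι, ?_, by group⟩
  have h1 : Bridge.res ψ (ι⁻¹ * τ * (φ ^ n)⁻¹) = 1 := by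
    rw [map_mul, map_mul, map_inv, map_inv, map_pow, hιr', ← hτ', ← hφ']
    group
  have h2 := (Bridge.res_eq_one_iff ψ).mp h1
  intro y hy
  obtain ⟨x, rfl⟩ := hψ y hy
  exact h2 x

end Fermat.Agent.FLAT
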