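import Fermat.Agent.FLAT.Desc.Star
import Fermat.Agent.Common.PlaceBridgeLocal

/-!
# FLAT / [DESC-GDB]

* `exists_rat_close` : `ℚ` is dense in `ℚ̄ ^ D_A` (`Bridge.exists_close_of_fixed` with `K = ℚ`).
* `exists_equivariant_basis` : Galois descent for `Map(V, ℚ̄)`.
-/

set_option autoImplicit false

noncomputable section

namespace Fermat.Agent.FLAT

variable {ℓ : ℕ} [Fact ℓ.Prime] {A : ValuationSubring Qb}

theorem exists_rat_close (hA : A.LiesOverPrime ℓ) {y : Qb}
    (hy : ∀ τ ∈ A.decompositionSubgroup ℚ, τ y = y) (n : ℕ) :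
    ∃ c : ℚ, A.valuation (y - algebraMap ℚ Qb c) ≤ A.valuation (ℓ : Qb) ^ n := by
  have hℓ : ℓ.Prime := Fact.out
  by_cases hy0 : y = 0
  · exact ⟨0, by rw [hy0, map_zero, sub_zero, map_zero]; exact zero_le⟩
  obtain ⟨k, hk⟩ := exists_pow_mul_mem hA y
  obtain ⟨c, hc0, h1, h2⟩ := Bridge.exists_close_of_fixed (φ := algebraMap ℚ Qb) hℓ hA hy0
    (fun σ hσ => hy σ hσ.1) (n + k)
  refine ⟨c, ?_⟩
  have hc : algebraMap ℚ Qb c ≠ 0 := (map_ne_zero _).mpr hc0
  have h3 : A.valuation (algebraMap ℚ Qb c) ≠ 0 := (A.valuation.ne_zero_iff).mpr hc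
  have h4 : A.valuation y = A.valuation (algebraMap ℚ Qb c) := by
    rwa [map_div₀, div_eq_one_iff_eq h3] at h1
  have h5 : y - algebraMap ℚ Qb c = (y / algebraMap ℚ Qb c - 1) * algebraMap ℚ Qb c := by
    field_simp
  have h6 : A.valuation (ℓ : Qb) ^ k * A.valuation y ≤ 1 := by
    rw [← map_pow, ← map_mul]
    exact (A.valuation_le_one_iff _).mpr hk
  rw [h5, map_mul, ← h4]
  calc A.valuation (y / algebraMap ℚ Qb c - 1) * A.valuation y
      ≤ A.valuation (ℓ : Qb) ^ (n + k) * A.valuation y := mul_le_mul_left h2 _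
    _ = A.valuation (ℓ : Qb) ^ n * (A.valuation (ℓ : Qb) ^ k * A.valuation y) := by
        rw [pow_add, mul_assoc]
    _ ≤ A.valuation (ℓ : Qb) ^ n * 1 := mul_le_mul_right h6 _
    _ = _ := mul_one _

section Descent

variable {V : Type} [AddCommGroup V] (act : GQ →* AddMonoid.End V)

theorem star_sum {ι : Type*} (s : Finset ι) (σ : GQ) (f : ι → V → Qb) :
    star act σ (∑ i ∈ s, f i) = ∑ i ∈ s, star act σ (f i) := by
  funext x
  simp only [star, Finset.sum_apply, map_sum]

/-- `star a w = star b w` if `b⁻¹ a` fixes `w`. -/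
theorem star_eq_star_of_isEquiv {a b : GQ} {w : V → Qb} (h : IsEquiv act (b⁻¹ * a) w) :
    star act a w = star act b w := by
  have h1 : a = b * (b⁻¹ * a) := by group
  rw [h1, star_mul, (isEquiv_iff_star_eq act _ w).mp (by simpa using h)]

/-- Dedekind independence of the embeddings `ψ ∘ g`. -/
theorem eq_zero_of_sum_embeddings {N : Type} [Field N] [NumberField N]
    (ψ : N →+* Qb) (a : (N ≃ₐ[ℚ] N) → Qb)
    (h : ∀ c : N, ∑ g : N ≃ₐ[ℚ] N, ψ (g c) * a g = 0) : ∀ g, a g = 0 := by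
  classical
  let χ : (N ≃ₐ[ℚ] N) → (N →* Qb) := fun g => (ψ : N →* Qb).comp ((g : N →+* N) : N →* N)
  have hχ : Function.Injective χ := by
    intro g g' hgg
    ext c
    apply ψ.injective
    exact congrArg (fun f : N →* Qb => f c) hgg
  have hli := (linearIndependent_monoidHom N Qb).comp χ hχ
  rw [Fintype.linearIndependent_iff] at hli
  refine hli a ?_
  funext c
  have := h c
  simp only [Finset.sum_apply, Pi.smul_apply, Function.comp, smul_eq_mul, Pi.zero_apply]
  rw [← this]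
  refine Finset.sum_congr rfl (fun g _ => ?_)
  rw [mul_comm]
  rfl

/-- the equivariant functions span `Map(V, ℚ̄)`. -/
theorem span_equivariant_eq_top [Finite V] (hs : SmoothAct act) :
    Submodule.span Qb {f : V → Qb | ∀ σ, IsEquiv act σ f} = ⊤ := by
  classical
  by_contra hne
  obtain ⟨lam, hlam0, hlam⟩ := Submodule.exists_le_ker_of_lt_top _ (lt_top_iff_ne_top.mpr hne)
  apply hlam0
  refine LinearMap.ext (fun w => ?_)
  rw [LinearMap.zero_apply]
  obtain ⟨L, hLfin, hL⟩ := exists_level act hs w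
  obtain ⟨N, _, _, _, ψ, hψ⟩ := Bridge.exists_galois_model L
  have hfix : ∀ u : GQ, Bridge.res ψ u = 1 → IsEquiv act u w := by
    intro u hu
    refine hL u (fun y hy => ?_)
    obtain ⟨x, rfl⟩ := hψ y hy
    exact (Bridge.res_eq_one_iff ψ).mp hu x
  let s : (N ≃ₐ[ℚ] N) → GQ := Function.surjInv (Bridge.res_surjective ψ)
  have hs' : ∀ g, Bridge.res ψ (s g) = g := Function.surjInv_eq (Bridge.res_surjective ψ)
  let T : N → V → Qb := fun c => ∑ g : N ≃ₐ[ℚ] N, ψ (g c) • star act (s g) w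
  have hT : ∀ c τ, IsEquiv act τ (T c) := by
    intro c τ
    rw [isEquiv_iff_star_eq]
    show star act τ (∑ g : N ≃ₐ[ℚ] N, ψ (g c) • star act (s g) w) = _
    rw [star_sum]
    refine Fintype.sum_equiv (Equiv.mulLeft (Bridge.res ψ τ)) _ _ (fun g => ?_)
    rw [star_smul, ← star_mul, Equiv.coe_mulLeft, ← Bridge.res_spec, AlgEquiv.mul_apply]
    congr 1
    refine star_eq_star_of_isEquiv act (hfix _ ?_)
    rw [map_mul, map_mul, map_inv, hs', hs']
    group
  have h0 : ∀ c : N, ∑ g : N ≃ₐ[ℚ] N, ψ (g c) * lam (star act (s g) w) = 0 := by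
    intro c
    have h1 : T c ∈ LinearMap.ker lam := hlam (Submodule.subset_span (hT c))
    rw [LinearMap.mem_ker] at h1
    rw [← h1]
    show _ = lam (∑ g : N ≃ₐ[ℚ] N, ψ (g c) • star act (s g) w)
    rw [map_sum]
    refine Finset.sum_congr rfl (fun g _ => ?_)
    rw [map_smul, smul_eq_mul]
  have h1 := eq_zero_of_sum_embeddings ψ _ h0 1
  rwa [(isEquiv_iff_star_eq act _ w).mp (hfix _ (hs' 1))] at h1

end Descent

/-- **[GDB]** Galois descent: `Map(V, ℚ̄)` has a basis of `G_ℚ`-equivariant functions.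
(For `w` fixed by the open normal subgroup `U = Gal(ℚ̄ / L)`, `L / ℚ` finite Galois with basis `c_i`,
the functions `∑_{σ ∈ Gal(L/ℚ)} σ(c_i) (σ ⋆ w)` are equivariant and span `w` because the matrix
`σ(c_i)` is invertible.  Then extract a basis from the spanning set of equivariant functions.) -/
theorem exists_equivariant_basis {V : Type} [AddCommGroup V] [Finite V]
    (act : GQ →* AddMonoid.End V) (hs : SmoothAct act) :
    ∃ (n : ℕ) (e : Module.Basis (Fin n) Qb (V → Qb)), ∀ i σ, IsEquiv act σ (e i) := by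
  classical
  obtain ⟨b, hb, hbspan, hbli⟩ := exists_linearIndependent Qb {f : V → Qb | ∀ σ, IsEquiv act σ f}
  let β : Module.Basis b Qb (V → Qb) :=
    Module.Basis.mk hbli (by rw [Subtype.range_coe, hbspan, span_equivariant_eq_top act hs])
  have hβ : ∀ i : b, β i = (i : V → Qb) := fun i => by simp [β]
  have : Finite b := Module.Finite.finite_basis β
  obtain ⟨n, ⟨e⟩⟩ := Finite.exists_equiv_fin b
  refine ⟨n, β.reindex e, fun i σ => ?_⟩
  rw [Module.Basis.reindex_apply, hβ]
  exact hb (e.symm i).2 σ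

end Fermat.Agent.FLAT
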