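import Fermat.Agent.FLAT.Desc.GDB

/-!
# FLAT / [UD2] : descent `D_A → G_ℚ`

`e_i` an equivariant basis of `Map(V, ℚ̄)`; `f = ∑ y_i e_i` with `y_i` fixed by `D_A` (uniqueness of
coordinates); `ℓ^a e_i ∈ H` for `a` large and `ℓ^b δ_x ∈ ∑ A e_i` for `b` large, so
`ℓ^(a+b) Map(V, A) ⊆ span_A {equivariant elements of H}`; approximate `y_i` by rationals `c_i` so well
that `f - ∑ c_i e_i ∈ ℓ^(max n (a+b)) Map(V, A)`.
-/

set_option autoImplicit false

noncomputable section

namespace Fermat.Agent.FLAT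

variable {ℓ : ℕ} [Fact ℓ.Prime] {A : ValuationSubring Qb}
variable {V : Type} [AddCommGroup V] [Finite V] {act : GQ →* AddMonoid.End V}

omit [Finite V] in
theorem isEquiv_rat_smul_ud2 {σ : GQ} {h : V → Qb} (hh : IsEquiv act σ h) (q : ℚ) :
    IsEquiv act σ (algebraMap ℚ Qb q • h) := by
  intro x
  simp only [Pi.smul_apply, smul_eq_mul, map_mul, AlgEquiv.commutes, hh x]

omit [Finite V] in
theorem isEquiv_sum_ud2 {σ : GQ} {ι : Type*} (s : Finset ι) (h : ι → V → Qb)
    (hh : ∀ i ∈ s, IsEquiv act σ (h i)) : IsEquiv act σ (∑ i ∈ s, h i) := by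
  intro x
  simp only [Finset.sum_apply, map_sum]
  exact Finset.sum_congr rfl fun i hi => hh i hi x

omit [Finite V] in
theorem act_act_inv_ud2 (act : GQ →* AddMonoid.End V) (σ : GQ) (x : V) :
    act σ (act σ⁻¹ x) = x := by
  have h : act σ * act σ⁻¹ = 1 := by rw [← map_mul, mul_inv_cancel, map_one]
  have := congrArg (fun φ : AddMonoid.End V => φ x) h
  simpa using this

/-- **[UD2]** -/
theorem mem_span_global (hA : A.LiesOverPrime ℓ) (hs : SmoothAct act)
    (H : Submodule A (V → Qb))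
    (hcond : ∃ n : ℕ, ∀ f : V → Qb, (∀ x, f x ∈ A) → ((ℓ : Qb) ^ n) • f ∈ H)
    {f : V → Qb} (hf : f ∈ H) (hfD : ∀ τ ∈ A.decompositionSubgroup ℚ, IsEquiv act τ f) :
    f ∈ Submodule.span A {h | h ∈ H ∧ ∀ σ : GQ, IsEquiv act σ h} := by
  classical
  obtain ⟨n, hn⟩ := hcond
  obtain ⟨m, e, he⟩ := exists_equivariant_basis act hs
  have : Fintype V := Fintype.ofFinite V
  have hl0 : (ℓ : Qb) ≠ 0 := by exact_mod_cast (Fact.out : ℓ.Prime).ne_zero
  have hlA : (ℓ : Qb) ∈ A := natCast_mem A ℓ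
  have hlrat : ∀ k : ℕ, (ℓ : Qb) ^ k = algebraMap ℚ Qb ((ℓ : ℚ) ^ k) := by
    intro k; rw [map_pow, map_natCast]
  have hmono : ∀ {k k' : ℕ} {y : Qb}, k ≤ k' → (ℓ : Qb) ^ k * y ∈ A → (ℓ : Qb) ^ k' * y ∈ A := by
    intro k k' y hkk hy
    obtain ⟨d, rfl⟩ := Nat.exists_eq_add_of_le hkk
    rw [add_comm, pow_add, mul_assoc]
    exact A.mul_mem _ _ (pow_mem hlA d) hy
  have hunif : ∀ {ι : Type} [Finite ι] (y : ι → Qb), ∃ N : ℕ, ∀ i, (ℓ : Qb) ^ N * y i ∈ A := by
    intro ι _ y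
    choose k hk using fun i => exists_pow_mul_mem hA (y i)
    have := Fintype.ofFinite ι
    exact ⟨Finset.univ.sup k, fun i => hmono (Finset.le_sup (Finset.mem_univ i)) (hk i)⟩
  obtain ⟨N, hN⟩ := hunif (fun p : Fin m × V => e p.1 p.2)
  obtain ⟨b, hb⟩ := hunif (fun p : V × Fin m => e.repr (Pi.single p.1 1) p.2)
  set S : Set (V → Qb) := {h | h ∈ H ∧ ∀ σ : GQ, IsEquiv act σ h} with hS
  -- (1)
  have hE : ∀ i, ((ℓ : Qb) ^ (n + N)) • e i ∈ S := by
    intro i
    refine ⟨?_, fun σ => ?_⟩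
    · rw [pow_add, mul_smul]
      exact hn _ fun x => hN (i, x)
    · rw [hlrat]
      exact isEquiv_rat_smul_ud2 (he i σ) _
  -- (2)
  have hrepr : ∀ (g : V → Qb) (i : Fin m),
      e.repr g i = ∑ x, g x * e.repr (Pi.single x 1) i := by
    intro g i
    have hg : g = ∑ x, g x • (Pi.single x 1 : V → Qb) := by
      funext y
      simp [Finset.sum_apply, Pi.single_apply]
    conv_lhs => rw [hg]
    simp [map_sum, Finsupp.finsetSum_apply]
  have hspan : ∀ g : V → Qb, (∀ x, g x ∈ A) →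
      ((ℓ : Qb) ^ (b + (n + N))) • g ∈ Submodule.span A S := by
    intro g hg
    have hw : ∀ i, (ℓ : Qb) ^ b * e.repr g i ∈ A := by
      intro i
      rw [hrepr, Finset.mul_sum]
      refine sum_mem fun x _ => ?_
      rw [mul_left_comm]
      exact A.mul_mem _ _ (hg x) (hb (x, i))
    have h1 : ((ℓ : Qb) ^ (b + (n + N))) • g =
        ∑ i, (⟨_, hw i⟩ : A) • (((ℓ : Qb) ^ (n + N)) • e i) := by
      conv_lhs => rw [← e.sum_repr g]
      rw [Finset.smul_sum]
      refine Finset.sum_congr rfl fun i _ => ?_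
      funext x
      simp only [Pi.smul_apply, smul_eq_mul]
      change _ = ((ℓ : Qb) ^ b * e.repr g i) * _
      rw [pow_add]
      ring
    rw [h1]
    exact sum_mem fun i _ => Submodule.smul_mem _ _ (Submodule.subset_span (hE i))
  -- (3)
  have hfix : ∀ i, ∀ τ ∈ A.decompositionSubgroup ℚ, τ (e.repr f i) = e.repr f i := by
    intro i τ hτ
    have h1 : f = ∑ j, τ (e.repr f j) • e j := by
      funext y
      have hy : act τ (act τ⁻¹ y) = y := act_act_inv_ud2 act τ y
      set x := act τ⁻¹ y with hx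
      have h2 : f y = τ (f x) := by rw [← hfD τ hτ x, hy]
      rw [h2]
      conv_lhs => rw [← e.sum_repr f]
      simp only [Finset.sum_apply, Pi.smul_apply, smul_eq_mul, map_sum, map_mul]
      refine Finset.sum_congr rfl fun j _ => ?_
      rw [← he j τ x, hy]
    have h3 := congrArg (fun F => e.repr F i) h1
    simp only [map_sum, map_smul, Finsupp.finsetSum_apply, Module.Basis.repr_self,
      Finsupp.smul_single, smul_eq_mul, mul_one, Finsupp.single_apply] at h3
    simp at h3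
    exact h3.symm
  -- (4)
  set K : ℕ := (b + (n + N)) + n with hK
  choose c hc using fun i => exists_rat_close hA (hfix i) (K + N)
  set u : Fin m → Qb := fun i => (e.repr f i - algebraMap ℚ Qb (c i)) / (ℓ : Qb) ^ (K + N) with hu
  have huA : ∀ i, u i ∈ A := by
    intro i
    rw [← A.valuation_le_one_iff, hu]
    simp only [map_div₀, map_pow]
    have hv0 : A.valuation (ℓ : Qb) ^ (K + N) ≠ 0 := by
      apply pow_ne_zero
      rw [Ne, map_eq_zero]
      exact hl0
    exact (div_le_one₀ (zero_lt_iff.mpr hv0)).mpr (hc i)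
  set g : V → Qb := ∑ i, u i • (((ℓ : Qb) ^ N) • e i) with hg
  have hgA : ∀ x, g x ∈ A := by
    intro x
    simp only [hg, Finset.sum_apply, Pi.smul_apply, smul_eq_mul]
    exact sum_mem fun i _ => A.mul_mem _ _ (huA i) (hN (i, x))
  set h₀ : V → Qb := ∑ i, algebraMap ℚ Qb (c i) • e i with hh₀
  have hdecomp : f = h₀ + ((ℓ : Qb) ^ K) • g := by
    conv_lhs => rw [← e.sum_repr f]
    rw [hh₀, hg, Finset.smul_sum, ← Finset.sum_add_distrib]
    refine Finset.sum_congr rfl fun i _ => ?_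
    rw [smul_smul, smul_smul, ← add_smul]
    congr 1
    simp only [hu]
    rw [pow_add]
    field_simp
    ring
  have hpowA : ∀ k : ℕ, ∀ x, (((ℓ : Qb) ^ k) • g) x ∈ A := by
    intro k x
    exact A.mul_mem _ _ (pow_mem hlA k) (hgA x)
  have hr1 : ((ℓ : Qb) ^ K) • g ∈ H := by
    rw [hK, add_comm, pow_add, mul_smul]
    exact hn _ (hpowA _)
  have hr2 : ((ℓ : Qb) ^ K) • g ∈ Submodule.span A S := by
    rw [hK, pow_add, mul_smul]
    exact hspan _ (hpowA _)
  have hh₀S : h₀ ∈ S := by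
    refine ⟨?_, fun σ => ?_⟩
    · have : h₀ = f - ((ℓ : Qb) ^ K) • g := by rw [hdecomp]; abel
      rw [this]
      exact H.sub_mem hf hr1
    · exact isEquiv_sum_ud2 _ _ fun i _ => isEquiv_rat_smul_ud2 (he i σ) _
  rw [hdecomp]
  exact Submodule.add_mem _ (Submodule.subset_span hh₀S) hr2

end Fermat.Agent.FLAT
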