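import Fermat.Agent.FLAT.Desc.UD1
import Fermat.Agent.FLAT.Desc.UD2
import Fermat.Agent.FLAT.Alg.Order

/-!
# FLAT / [DESC] : descent of a Hopf order from `A` to `ℤ_(ℓ)`

* [UD1], [UD2] : see `Desc/UD1.lean`, `Desc/UD2.lean`.
* [DESC-FIN] `exists_isHopfOrder`.
-/

set_option autoImplicit false
set_option linter.unusedSectionVars false

noncomputable section

namespace Fermat.Agent.FLAT

variable {ℓ : ℕ} [Fact ℓ.Prime] {A : ValuationSubring Qb}
variable {V : Type} [AddCommGroup V] [Finite V] {act : GQ →* AddMonoid.End V}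

omit [Finite V] in
theorem IsEquiv.mul_fun {σ : GQ} {f g : V → Qb} (hf : IsEquiv act σ f) (hg : IsEquiv act σ g) :
    IsEquiv act σ (f * g) := fun x => by
  rw [Pi.mul_apply, Pi.mul_apply, hf x, hg x, map_mul]

omit [Finite V] in
theorem IsEquiv.add_fun {σ : GQ} {f g : V → Qb} (hf : IsEquiv act σ f) (hg : IsEquiv act σ g) :
    IsEquiv act σ (f + g) := fun x => by
  rw [Pi.add_apply, Pi.add_apply, hf x, hg x, map_add]

/-- the `ℤ_(ℓ)`-algebra of `G_ℚ`-equivariant elements of an `A`-algebra of functions. -/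
def globalPart (ℓ : ℕ) [Fact ℓ.Prime] (act : GQ →* AddMonoid.End V) (H : Subalgebra A (V → Qb))
    (hA : A.LiesOverPrime ℓ) : Subalgebra (Zl ℓ) (V → Qb) where
  carrier := {h | h ∈ H ∧ ∀ σ : GQ, IsEquiv act σ h}
  mul_mem' := fun {f g} hf hg => ⟨H.mul_mem hf.1 hg.1, fun σ => (hf.2 σ).mul_fun (hg.2 σ)⟩
  add_mem' := fun {f g} hf hg => ⟨H.add_mem hf.1 hg.1, fun σ => (hf.2 σ).add_fun (hg.2 σ)⟩
  algebraMap_mem' := fun r => by
    have hr : algebraMap ℚ Qb (r : ℚ) ∈ A := (algebraMap_mem_iff_mem_Zl hA _).2 r.2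
    have h1 : algebraMap (Zl ℓ) (V → Qb) r =
        algebraMap A (V → Qb) ⟨algebraMap ℚ Qb (r : ℚ), hr⟩ := by
      funext x
      rw [Pi.algebraMap_apply, Pi.algebraMap_apply, algebraMap_Zl_apply]
      rfl
    refine ⟨by rw [h1]; exact H.algebraMap_mem _, fun σ x => ?_⟩
    rw [Pi.algebraMap_apply, Pi.algebraMap_apply, algebraMap_Zl_apply, σ.commutes]

theorem mem_globalPart {H : Subalgebra A (V → Qb)} {hA : A.LiesOverPrime ℓ} {h : V → Qb} :
    h ∈ globalPart ℓ act H hA ↔ h ∈ H ∧ ∀ σ : GQ, IsEquiv act σ h := Iff.rfl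

/-- a `D_A`-stable Hopf order over `A` generated by inertia-equivariant functions is generated by
its global part. -/
theorem span_globalPart (hA : A.LiesOverPrime ℓ) (hs : SmoothAct act)
    {H : Subalgebra A (V → Qb)} (h : IsHopfOrderA A act H)
    (hstab : ∀ τ ∈ A.decompositionSubgroup ℚ, ∀ f ∈ H, star act τ f ∈ H) :
    Subalgebra.toSubmodule H = Submodule.span A (globalPart ℓ act H hA : Set (V → Qb)) := by
  apply le_antisymm
  · rw [h.span_inertia, Submodule.span_le]
    rintro f ⟨hf, hfI⟩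
    have h1 := mem_span_decomp hA hs (Subalgebra.toSubmodule H) hstab hf hfI
    refine (Submodule.span_le.2 ?_) h1
    rintro g ⟨hg, hgD⟩
    exact mem_span_global hA hs (Subalgebra.toSubmodule H) (h.exists_conductor hA) hg hgD
  · rw [Submodule.span_le]
    intro f hf
    exact hf.1

/-! ### auxiliary linear algebra -/

theorem act_surjective (act : GQ →* AddMonoid.End V) (σ : GQ) : Function.Surjective (act σ) := by
  intro x
  refine ⟨act σ⁻¹ x, ?_⟩
  have : act σ (act σ⁻¹ x) = (act σ * act σ⁻¹) x := rfl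
  rw [this, ← map_mul, mul_inv_cancel, map_one]
  rfl

/-- coefficients of a `σ`-equivariant function on a linearly independent family of `σ`-equivariant
functions are fixed by `σ`. -/
theorem coeff_fixed {X ι : Type*} [Fintype ι] {ρ : X → X} (hρ : Function.Surjective ρ) (σ : GQ)
    {B : ι → X → Qb} (hB : LinearIndependent Qb B) (hBe : ∀ i x, B i (ρ x) = σ (B i x))
    (c : ι → Qb) (hF : ∀ x, ∑ i, c i * B i (ρ x) = σ (∑ i, c i * B i x)) (i : ι) :
    σ (c i) = c i := by
  have h0 : ∑ i, (c i - σ (c i)) • B i = 0 := by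
    funext y
    obtain ⟨x, rfl⟩ := hρ y
    have h1 := hF x
    rw [map_sum] at h1
    simp only [map_mul, ← hBe] at h1
    simp only [Finset.sum_apply, Pi.smul_apply, smul_eq_mul, sub_mul, Finset.sum_sub_distrib,
      Pi.zero_apply]
    rw [h1, sub_self]
  have := Fintype.linearIndependent_iff.1 hB _ h0 i
  exact (sub_eq_zero.1 this).symm

/-- products of linearly independent functions are linearly independent. -/
theorem linearIndependent_prod_fun {X Y ι κ : Type*} [Fintype ι] [Fintype κ] {b : ι → X → Qb}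
    {b' : κ → Y → Qb} (hb : LinearIndependent Qb b) (hb' : LinearIndependent Qb b') :
    LinearIndependent Qb (fun (p : ι × κ) (q : X × Y) => b p.1 q.1 * b' p.2 q.2) := by
  rw [Fintype.linearIndependent_iff]
  intro g hg
  have h1 : ∀ (y : Y) (i : ι), ∑ j, g (i, j) * b' j y = 0 := by
    intro y
    apply Fintype.linearIndependent_iff.1 hb
    funext x
    have := congrFun hg (x, y)
    simp only [Finset.sum_apply, Pi.smul_apply, smul_eq_mul, Pi.zero_apply,
      Fintype.sum_prod_type] at this ⊢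
    rw [← this]
    refine Finset.sum_congr rfl fun i _ => ?_
    rw [Finset.sum_mul]
    refine Finset.sum_congr rfl fun j _ => ?_
    ring
  rintro ⟨i, j⟩
  refine Fintype.linearIndependent_iff.1 hb' (fun j => g (i, j)) ?_ j
  funext y
  simpa using h1 y i

theorem box_span_le {𝔸 L X Y : Type*} [CommSemiring 𝔸] [CommSemiring L] [Algebra 𝔸 L]
    {S : Set (X → L)} {T : Set (Y → L)} {N : Submodule 𝔸 (X × Y → L)}
    (h : ∀ f ∈ S, ∀ g ∈ T, (fun p : X × Y => f p.1 * g p.2) ∈ N) :
    box (Submodule.span 𝔸 S) (Submodule.span 𝔸 T) ≤ N := by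
  unfold box
  rw [Submodule.span_le]
  rintro F ⟨f, hf, g, hg, rfl⟩
  show (fun p : X × Y => f p.1 * g p.2) ∈ N
  induction hf using Submodule.span_induction with
  | mem f hf =>
    induction hg using Submodule.span_induction with
    | mem g hg => exact h f hf g hg
    | zero =>
      have : (fun p : X × Y => f p.1 * (0 : Y → L) p.2) = 0 := by
        funext p
        simp
      rw [this]
      exact N.zero_mem
    | add g₁ g₂ _ _ h₁ h₂ =>
      have : (fun p : X × Y => f p.1 * (g₁ + g₂) p.2) =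
          (fun p : X × Y => f p.1 * g₁ p.2) + fun p : X × Y => f p.1 * g₂ p.2 := by
        funext p
        simp [mul_add]
      rw [this]
      exact N.add_mem h₁ h₂
    | smul a g _ h₁ =>
      have : (fun p : X × Y => f p.1 * (a • g) p.2) = a • fun p : X × Y => f p.1 * g p.2 := by
        funext p
        simp
      rw [this]
      exact N.smul_mem a h₁
  | zero =>
    have : (fun p : X × Y => (0 : X → L) p.1 * g p.2) = 0 := by
      funext p
      simp
    rw [this]
    exact N.zero_mem
  | add f₁ f₂ _ _ h₁ h₂ =>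
    have : (fun p : X × Y => (f₁ + f₂) p.1 * g p.2) =
        (fun p : X × Y => f₁ p.1 * g p.2) + fun p : X × Y => f₂ p.1 * g p.2 := by
      funext p
      simp [add_mul]
    rw [this]
    exact N.add_mem h₁ h₂
  | smul a f _ h₁ =>
    have : (fun p : X × Y => (a • f) p.1 * g p.2) = a • fun p : X × Y => f p.1 * g p.2 := by
      funext p
      simp
    rw [this]
    exact N.smul_mem a h₁

theorem exists_pow_mul_mem_of_finite (hA : A.LiesOverPrime ℓ) {ι : Type*} [Finite ι]
    (y : ι → Qb) : ∃ k : ℕ, ∀ i, (ℓ : Qb) ^ k * y i ∈ A := by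
  classical
  have := Fintype.ofFinite ι
  choose k hk using fun i => exists_pow_mul_mem hA (y i)
  refine ⟨∑ i, k i, fun i => ?_⟩
  have h1 : k i ≤ ∑ i, k i := Finset.single_le_sum (fun _ _ => Nat.zero_le _) (Finset.mem_univ i)
  obtain ⟨d, hd⟩ := Nat.exists_eq_add_of_le h1
  rw [hd, add_comm, pow_add, mul_assoc]
  exact mul_mem (pow_mem (natCast_mem A ℓ) d) (hk i)

instance isFractionRing_Zl : IsFractionRing (Zl ℓ) ℚ := by
  refine IsFractionRing.of_field (R := Zl ℓ) (K := ℚ) fun z => ⟨⟨z.num, ?_⟩, ⟨z.den, ?_⟩, ?_⟩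
  · show ((z.num : ℚ)).den.Coprime ℓ
    simp
  · show ((z.den : ℚ)).den.Coprime ℓ
    simp
  · exact (Rat.num_div_den z).symm

/-- an element of `A` fixed by `G_ℚ` comes from `ℤ_(ℓ)`. -/
theorem exists_Zl_of_fixed (hA : A.LiesOverPrime ℓ) {y : Qb} (hy : y ∈ A)
    (hfix : ∀ σ : GQ, σ y = y) : ∃ r : Zl ℓ, algebraMap (Zl ℓ) Qb r = y := by
  obtain ⟨q, rfl⟩ := mem_range_of_fixed hfix
  exact ⟨⟨q, (algebraMap_mem_iff_mem_Zl hA q).1 hy⟩, algebraMap_Zl_apply _⟩

theorem fg_globalPart (hA : A.LiesOverPrime ℓ) (hs : SmoothAct act)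
    {H : Subalgebra A (V → Qb)} (h : IsHopfOrderA A act H) :
    (Subalgebra.toSubmodule (globalPart ℓ act H hA)).FG := by
  classical
  have := Fintype.ofFinite V
  obtain ⟨n, e, he⟩ := exists_equivariant_basis act hs
  obtain ⟨k, hk⟩ := exists_pow_mul_mem_of_finite hA
    (fun p : Fin n × V => e.repr (Pi.single p.2 1) p.1)
  have hℓ0 : (ℓ : Qb) ^ k ≠ 0 := pow_ne_zero _ (by exact_mod_cast (Fact.out : ℓ.Prime).ne_zero)
  have hle : Subalgebra.toSubmodule (globalPart ℓ act H hA) ≤
      Submodule.span (Zl ℓ) (Set.range fun i => ((ℓ : Qb) ^ k)⁻¹ • e i) := by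
    intro f hf
    have hfH : f ∈ H := hf.1
    have hfe : ∀ σ : GQ, IsEquiv act σ f := hf.2
    -- the coordinates are fixed
    have hfix : ∀ i (σ : GQ), σ (e.repr f i) = e.repr f i := by
      intro i σ
      refine coeff_fixed (act_surjective act σ) σ e.linearIndependent (fun i x => he i σ x)
        (fun i => e.repr f i) (fun x => ?_) i
      have h1 : ∀ y, ∑ i, e.repr f i * e i y = f y := by
        intro y
        have := congrFun (e.sum_repr f) y
        simpa using this
      rw [h1, h1, hfe σ x]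
    -- the coordinates have bounded denominators
    have hint : ∀ i, (ℓ : Qb) ^ k * e.repr f i ∈ A := by
      intro i
      have h1 : f = ∑ x, f x • (Pi.single x 1 : V → Qb) := by
        funext y
        simp [Finset.sum_apply, Pi.single_apply]
      have h2 : e.repr f i = ∑ x, f x * e.repr (Pi.single x 1) i := by
        conv_lhs => rw [h1]
        simp [map_sum]
      rw [h2, Finset.mul_sum]
      refine sum_mem fun x _ => ?_
      have : (ℓ : Qb) ^ k * (f x * e.repr (Pi.single x 1) i) =
          f x * ((ℓ : Qb) ^ k * e.repr (Pi.single x 1) i) := by ring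
      rw [this]
      exact mul_mem (h.integral f hfH x) (hk (i, x))
    have hr : ∀ i, ∃ r : Zl ℓ, algebraMap (Zl ℓ) Qb r = (ℓ : Qb) ^ k * e.repr f i := fun i =>
      exists_Zl_of_fixed hA (hint i) fun σ => by rw [map_mul, map_pow, map_natCast, hfix]
    choose r hr using hr
    have h3 : f = ∑ i, r i • (((ℓ : Qb) ^ k)⁻¹ • e i) := by
      conv_lhs => rw [← e.sum_repr f]
      refine Finset.sum_congr rfl fun i _ => ?_
      rw [← algebraMap_smul Qb (r i), hr, smul_smul, mul_comm, ← mul_assoc, inv_mul_cancel₀ hℓ0,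
        one_mul]
    rw [h3]
    exact sum_mem fun i _ => Submodule.smul_mem _ _ (Submodule.subset_span ⟨i, rfl⟩)
  exact isNoetherian_submodule.1 (isNoetherian_span_of_finite (Zl ℓ) (Set.finite_range _)) _ hle

theorem exists_basis_globalPart (hA : A.LiesOverPrime ℓ) (hs : SmoothAct act)
    {H : Subalgebra A (V → Qb)} (h : IsHopfOrderA A act H) :
    ∃ (m : ℕ) (b : Fin m → V → Qb), (∀ i, b i ∈ globalPart ℓ act H hA) ∧
      LinearIndependent Qb b ∧
      Submodule.span (Zl ℓ) (Set.range b) = Subalgebra.toSubmodule (globalPart ℓ act H hA) := by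
  have hfin : Module.Finite (Zl ℓ) (Subalgebra.toSubmodule (globalPart ℓ act H hA)) :=
    Module.Finite.iff_fg.2 (fg_globalPart hA hs h)
  have : FaithfulSMul (Zl ℓ) Qb :=
    (faithfulSMul_iff_algebraMap_injective _ _).2 algebraMap_Zl_injective
  have htf : Module.IsTorsionFree (Zl ℓ) (V → Qb) := inferInstance
  obtain ⟨m, B⟩ := Module.basisOfFiniteTypeTorsionFree'
    (R := Zl ℓ) (M := Subalgebra.toSubmodule (globalPart ℓ act H hA))
  refine ⟨m, fun i => (B i : V → Qb), fun i => (B i).2, ?_, ?_⟩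
  · refine linearIndependent_of_equivariant act _ (fun i σ => (B i).2.2 σ) ?_
    have h1 : LinearIndependent (Zl ℓ) (fun i => ((B i : _) : V → Qb)) :=
      B.linearIndependent.map' (Submodule.subtype _) (Submodule.ker_subtype _)
    exact h1.localization ℚ (nonZeroDivisors (Zl ℓ))
  · have h1 := congrArg (Submodule.map (Submodule.subtype _)) B.span_eq
    rw [Submodule.map_span, Submodule.map_subtype_top, ← Set.range_comp] at h1
    exact h1

theorem span_Zl_le_span (hA : A.LiesOverPrime ℓ) {X : Type*} (S : Set (X → Qb)) {g : X → Qb}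
    (hg : g ∈ Submodule.span (Zl ℓ) S) : g ∈ Submodule.span A S := by
  induction hg using Submodule.span_induction with
  | mem x hx => exact Submodule.subset_span hx
  | zero => exact Submodule.zero_mem _
  | add x y _ _ hx hy => exact Submodule.add_mem _ hx hy
  | smul r x _ hx =>
    have hr : algebraMap ℚ Qb (r : ℚ) ∈ A := (algebraMap_mem_iff_mem_Zl hA _).2 r.2
    have : r • x = (⟨algebraMap ℚ Qb (r : ℚ), hr⟩ : A) • x := by
      rw [← algebraMap_smul Qb r, algebraMap_Zl_apply]
      rfl
    rw [this]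
    exact Submodule.smul_mem _ _ hx

/-- **[DESC-FIN1]**  (fg: the coordinates on an equivariant basis are rational with bounded
denominators; comul: write
`h(x + y) = ∑ a_ij e_i(x) e_j(y)` on a `ℤ_(ℓ)`-basis `e_i` of the global part, `a_ij ∈ A` by
`span_globalPart`, and `a_ij` is `G_ℚ`-fixed by uniqueness, so `a_ij ∈ A ∩ ℚ = ℤ_(ℓ)`.) -/
theorem isHopfOrder_globalPart (hA : A.LiesOverPrime ℓ) (hs : SmoothAct act)
    {H : Subalgebra A (V → Qb)} (h : IsHopfOrderA A act H)
    (hstab : ∀ τ ∈ A.decompositionSubgroup ℚ, ∀ f ∈ H, star act τ f ∈ H) :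
    IsHopfOrder ℓ act (globalPart ℓ act H hA) := by
  have hspan := span_globalPart hA hs h hstab
  refine ⟨fun f hf σ => hf.2 σ, fg_globalPart hA hs h, ?_, ?_⟩
  · rw [eq_top_iff, ← h.span_top, Submodule.span_le]
    intro f hf
    have h1 : f ∈ Submodule.span A (globalPart ℓ act H hA : Set (V → Qb)) := by
      rw [← hspan]
      exact hf
    exact Submodule.span_le_restrictScalars A Qb _ h1
  · intro f hf
    obtain ⟨m, b, hb, hbli, hbspan⟩ := exists_basis_globalPart hA hs h
    have hH : Subalgebra.toSubmodule H = Submodule.span A (Set.range b) := by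
      rw [hspan]
      apply le_antisymm
      · rw [Submodule.span_le]
        intro g hg
        apply span_Zl_le_span hA
        rw [hbspan]
        exact hg
      · apply Submodule.span_mono
        rintro _ ⟨i, rfl⟩
        exact hb i
    have hF : (fun p : V × V => f (p.1 + p.2)) ∈ Submodule.span A
        (Set.range fun (q : Fin m × Fin m) (p : V × V) => b q.1 p.1 * b q.2 p.2) := by
      have h1 := h.comul f hf.1
      rw [hH] at h1
      refine box_span_le (fun f' hf' g' hg' => ?_) h1
      obtain ⟨i, rfl⟩ := hf'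
      obtain ⟨j, rfl⟩ := hg'
      exact Submodule.subset_span ⟨(i, j), rfl⟩
    obtain ⟨c, hc⟩ := (Submodule.mem_span_range_iff_exists_fun A).1 hF
    have hc' : ∀ p : V × V, ∑ q : Fin m × Fin m, (c q : Qb) * (b q.1 p.1 * b q.2 p.2) =
        f (p.1 + p.2) := by
      intro p
      have := congrFun hc p
      rw [← this, Finset.sum_apply]
      rfl
    have hfix : ∀ q (σ : GQ), σ (c q : Qb) = c q := by
      intro q σ
      refine coeff_fixed (ρ := Prod.map (act σ) (act σ))
        ((act_surjective act σ).prodMap (act_surjective act σ)) σ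
        (linearIndependent_prod_fun hbli hbli) (fun q p => ?_) (fun q => (c q : Qb))
        (fun p => ?_) q
      · show b q.1 (act σ p.1) * b q.2 (act σ p.2) = σ (b q.1 p.1 * b q.2 p.2)
        rw [(hb q.1).2 σ, (hb q.2).2 σ, map_mul]
      · rw [hc', hc']
        show f (act σ p.1 + act σ p.2) = _
        rw [← map_add, hf.2 σ]
    choose r hr using fun q => exists_Zl_of_fixed hA (c q).2 (hfix q)
    have hfin : (fun p : V × V => f (p.1 + p.2)) =
        ∑ q : Fin m × Fin m, r q • fun p : V × V => b q.1 p.1 * b q.2 p.2 := by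
      funext p
      rw [← hc' p, Finset.sum_apply]
      refine Finset.sum_congr rfl fun q _ => ?_
      rw [Pi.smul_apply, ← algebraMap_smul Qb (r q), hr, smul_eq_mul]
    rw [hfin]
    exact sum_mem fun q _ => Submodule.smul_mem _ _
      (Submodule.subset_span ⟨b q.1, hb q.1, b q.2, hb q.2, rfl⟩)

/-- **[DESC]** -/
theorem exists_isHopfOrder (hA : A.LiesOverPrime ℓ) (hs : SmoothAct act)
    {H : Subalgebra A (V → Qb)} (h : IsHopfOrderA A act H) :
    ∃ H' : Subalgebra (Zl ℓ) (V → Qb), IsHopfOrder ℓ act H' :=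
  ⟨_, isHopfOrder_globalPart hA hs h.hull fun _ hτ _ hf => star_mem_hull H hτ hf⟩

end Fermat.Agent.FLAT
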