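import Fermat.Agent.FLAT.Zl

/-!
# FLAT / [DESC-STAR] : the semilinear action on functions, the `D_A`-hull of a Hopf order

`star act σ f = σ ∘ f ∘ act σ⁻¹`.  For `τ ∈ D_A` it is a `τ`-semilinear ring automorphism of
`Map(V, ℚ̄)` preserving `Map(V, A)`; it transports Hopf orders over `A` to Hopf orders over `A`; the
algebra generated by Hopf orders is a Hopf order.  So the `D_A`-hull of a Hopf order (generated by
inertia-equivariant functions) is again one (`I_A` is normal in `D_A`), and it is `D_A`-stable.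
-/

set_option autoImplicit false

noncomputable section

namespace Fermat.Agent.FLAT

open Pointwise

variable {V : Type} [AddCommGroup V] (act : GQ →* AddMonoid.End V)

/-- every point of `V` is fixed by an open subgroup of `G_ℚ`. -/
def SmoothAct : Prop :=
  ∀ x : V, ∃ L : IntermediateField ℚ Qb, FiniteDimensional ℚ L ∧
    ∀ σ : GQ, (∀ y ∈ L, σ y = y) → act σ x = x

theorem star_one (f : V → Qb) : star act 1 f = f := by
  funext x
  simp [star]

theorem star_mul (σ τ : GQ) (f : V → Qb) : star act (σ * τ) f = star act σ (star act τ f) := by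
  funext x
  simp [star, mul_inv_rev, map_mul]

theorem star_add (σ : GQ) (f g : V → Qb) : star act σ (f + g) = star act σ f + star act σ g := by
  funext x
  simp [star]

theorem star_mul_fun (σ : GQ) (f g : V → Qb) :
    star act σ (f * g) = star act σ f * star act σ g := by
  funext x
  simp [star]

theorem star_smul (σ : GQ) (a : Qb) (f : V → Qb) : star act σ (a • f) = σ a • star act σ f := by
  funext x
  simp [star]

theorem act_inv_act (σ : GQ) (x : V) : act σ⁻¹ (act σ x) = x := by
  have h : (act σ⁻¹ * act σ) x = x := by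
    rw [← map_mul, inv_mul_cancel, map_one]; rfl
  exact h

theorem act_act_inv (σ : GQ) (x : V) : act σ (act σ⁻¹ x) = x := by
  have h : (act σ * act σ⁻¹) x = x := by
    rw [← map_mul, mul_inv_cancel, map_one]; rfl
  exact h

theorem isEquiv_iff_star_eq (σ : GQ) (f : V → Qb) : IsEquiv act σ f ↔ star act σ f = f := by
  constructor
  · intro h
    funext x
    have := h (act σ⁻¹ x)
    rw [act_act_inv] at this
    exact this.symm
  · intro h x
    have := congrFun h (act σ x)
    simp only [star, act_inv_act] at this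
    exact this.symm

theorem IsEquiv.mul_elt {σ τ : GQ} {f : V → Qb} (hσ : IsEquiv act σ f) (hτ : IsEquiv act τ f) :
    IsEquiv act (σ * τ) f := by
  rw [isEquiv_iff_star_eq] at *
  rw [star_mul, hτ, hσ]

theorem IsEquiv.inv_elt {σ : GQ} {f : V → Qb} (hσ : IsEquiv act σ f) : IsEquiv act σ⁻¹ f := by
  rw [isEquiv_iff_star_eq] at *
  calc star act σ⁻¹ f = star act σ⁻¹ (star act σ f) := by rw [hσ]
    _ = f := by rw [← star_mul, inv_mul_cancel, star_one]

/-- every function `V → ℚ̄` on a finite smooth `G_ℚ`-set is equivariant under an open subgroup. -/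
theorem exists_level [Finite V] (hs : SmoothAct act) (f : V → Qb) :
    ∃ L : IntermediateField ℚ Qb, FiniteDimensional ℚ L ∧
      ∀ σ : GQ, (∀ y ∈ L, σ y = y) → IsEquiv act σ f := by
  choose L hL hfix using hs
  have halg : Algebra.IsAlgebraic ℚ Qb := AlgebraicClosure.isAlgebraic ℚ
  have : ∀ x, FiniteDimensional ℚ (L x) := hL
  have : ∀ x, FiniteDimensional ℚ (IntermediateField.adjoin ℚ {f x}) := fun x =>
    IntermediateField.adjoin.finiteDimensional (Algebra.IsAlgebraic.isAlgebraic (f x)).isIntegral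
  have : ∀ x, FiniteDimensional ℚ (L x ⊔ IntermediateField.adjoin ℚ {f x} :
      IntermediateField ℚ Qb) := fun x => IntermediateField.finiteDimensional_sup _ _
  refine ⟨⨆ x, (L x ⊔ IntermediateField.adjoin ℚ {f x}),
    IntermediateField.finiteDimensional_iSup_of_finite, ?_⟩
  intro σ hσ x
  have hle : (L x ⊔ IntermediateField.adjoin ℚ {f x} : IntermediateField ℚ Qb) ≤
      ⨆ x, (L x ⊔ IntermediateField.adjoin ℚ {f x}) :=
    le_iSup (fun x => (L x ⊔ IntermediateField.adjoin ℚ {f x} : IntermediateField ℚ Qb)) x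
  have h1 : act σ x = x := hfix x σ (fun y hy => hσ y (hle (le_sup_left (a := L x) hy)))
  have h2 : σ (f x) = f x := hσ _ (hle (le_sup_right (a := L x)
    (IntermediateField.mem_adjoin_simple_self ℚ (f x))))
  rw [h1, h2]

variable (A : ValuationSubring Qb)

/-- the `D_A`-hull. -/
def hull (H : Subalgebra A (V → Qb)) : Subalgebra A (V → Qb) :=
  Algebra.adjoin A {g | ∃ τ ∈ A.decompositionSubgroup ℚ, ∃ f ∈ H, g = star act τ f}

variable {A act}

theorem le_hull (H : Subalgebra A (V → Qb)) : H ≤ hull act A H := by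
  intro f hf
  exact Algebra.subset_adjoin ⟨1, one_mem _, f, hf, (star_one act f).symm⟩

theorem apply_mem_of_mem_decomposition {τ : GQ} (hτ : τ ∈ A.decompositionSubgroup ℚ) {a : Qb}
    (ha : a ∈ A) : τ a ∈ A := by
  have h : τ • A = A := hτ
  have h2 : τ • a ∈ τ • A := ValuationSubring.smul_mem_pointwise_smul τ a A ha
  rw [h] at h2
  exact h2

theorem star_algebraMap (τ : GQ) (hτ : τ ∈ A.decompositionSubgroup ℚ) (a : A) :
    star act τ (algebraMap A (V → Qb) a) =
      algebraMap A (V → Qb) ⟨τ a, apply_mem_of_mem_decomposition hτ a.2⟩ := by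
  funext x
  rfl

theorem star_mem_hull (H : Subalgebra A (V → Qb)) {τ : GQ} (hτ : τ ∈ A.decompositionSubgroup ℚ)
    {f : V → Qb} (hf : f ∈ hull act A H) : star act τ f ∈ hull act A H := by
  induction hf using Algebra.adjoin_induction with
  | mem g hg =>
    obtain ⟨τ', hτ', f', hf', rfl⟩ := hg
    rw [← star_mul]
    exact Algebra.subset_adjoin ⟨τ * τ', mul_mem hτ hτ', f', hf', rfl⟩
  | algebraMap a =>
    rw [star_algebraMap τ hτ]
    exact Subalgebra.algebraMap_mem _ _
  | add f g _ _ hf hg =>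
    rw [star_add]; exact add_mem hf hg
  | mul f g _ _ hf hg =>
    rw [star_mul_fun]; exact mul_mem hf hg

theorem box_mul_mem {𝔸 L X Y : Type*} [CommSemiring 𝔸] [CommSemiring L] [Algebra 𝔸 L]
    (H₁ : Subalgebra 𝔸 (X → L)) (H₂ : Subalgebra 𝔸 (Y → L)) {F G : X × Y → L}
    (hF : F ∈ box (Subalgebra.toSubmodule H₁) (Subalgebra.toSubmodule H₂))
    (hG : G ∈ box (Subalgebra.toSubmodule H₁) (Subalgebra.toSubmodule H₂)) :
    F * G ∈ box (Subalgebra.toSubmodule H₁) (Subalgebra.toSubmodule H₂) := by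
  unfold box at *
  induction hF using Submodule.span_induction with
  | mem F hF =>
    obtain ⟨f, hf, g, hg, rfl⟩ := hF
    induction hG using Submodule.span_induction with
    | mem G hG =>
      obtain ⟨f', hf', g', hg', rfl⟩ := hG
      refine Submodule.subset_span ⟨f * f', H₁.mul_mem hf hf', g * g', H₂.mul_mem hg hg', ?_⟩
      funext p
      simp only [Pi.mul_apply]
      ring
    | zero => rw [mul_zero]; exact zero_mem _
    | add x y _ _ hx hy => rw [mul_add]; exact add_mem hx hy
    | smul a x _ hx => rw [mul_smul_comm]; exact Submodule.smul_mem _ _ hx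
  | zero => rw [zero_mul]; exact zero_mem _
  | add x y _ _ hx hy => rw [add_mul]; exact add_mem hx hy
  | smul a x _ hx => rw [smul_mul_assoc]; exact Submodule.smul_mem _ _ hx

/-- `box H H` is closed under multiplication, so comultiplication-closedness can be checked on
algebra generators. -/
theorem comulClosed_adjoin {𝔸 L X : Type*} [CommSemiring 𝔸] [CommSemiring L] [Algebra 𝔸 L] [Add X]
    (𝒢 : Set (X → L))
    (h : ∀ g ∈ 𝒢, (fun p : X × X => g (p.1 + p.2)) ∈
      box (Subalgebra.toSubmodule (Algebra.adjoin 𝔸 𝒢))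
        (Subalgebra.toSubmodule (Algebra.adjoin 𝔸 𝒢))) :
    ComulClosed (Subalgebra.toSubmodule (Algebra.adjoin 𝔸 𝒢)) := by
  intro f hf
  replace hf : f ∈ Algebra.adjoin 𝔸 𝒢 := hf
  induction hf using Algebra.adjoin_induction with
  | mem g hg => exact h g hg
  | algebraMap a =>
    have : (fun p : X × X => (algebraMap 𝔸 (X → L) a) (p.1 + p.2)) =
        a • (fun p : X × X => (1 : X → L) p.1 * (1 : X → L) p.2) := by
      funext p
      simp [Algebra.smul_def]
    rw [this]
    exact Submodule.smul_mem _ _ (Submodule.subset_span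
      ⟨1, (Algebra.adjoin 𝔸 𝒢).one_mem, 1, (Algebra.adjoin 𝔸 𝒢).one_mem, rfl⟩)
  | add f g _ _ hf' hg' => exact add_mem hf' hg'
  | mul f g _ _ hf' hg' => exact box_mul_mem _ _ hf' hg'

theorem conj_mem_inertia {σ τ : GQ} (hσ : σ ∈ A.inertiaSubgroupIn ℚ)
    (hτ : τ ∈ A.decompositionSubgroup ℚ) : τ⁻¹ * σ * τ ∈ A.inertiaSubgroupIn ℚ := by
  obtain ⟨s, hs, rfl⟩ := hσ
  have hn : (A.inertiaSubgroup ℚ).Normal := by
    unfold ValuationSubring.inertiaSubgroup
    infer_instance
  have := hn.conj_mem s hs (⟨τ, hτ⟩ : A.decompositionSubgroup ℚ)⁻¹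
  refine ⟨_, this, ?_⟩
  simp

omit [AddCommGroup V] in
theorem smul_mem_of_mem (H : Subalgebra A (V → Qb)) {a : Qb} (ha : a ∈ A) {f : V → Qb}
    (hf : f ∈ H) : a • f ∈ H :=
  H.smul_mem hf (⟨a, ha⟩ : A)

/-- the semilinear action on functions of two variables. -/
theorem star2_mem_box {H H' : Subalgebra A (V → Qb)} {τ : GQ}
    (hτ : τ ∈ A.decompositionSubgroup ℚ) (hH : ∀ f ∈ H, star act τ f ∈ H') {F : V × V → Qb}
    (hF : F ∈ box (Subalgebra.toSubmodule H) (Subalgebra.toSubmodule H)) :
    (fun p : V × V => τ (F (act τ⁻¹ p.1, act τ⁻¹ p.2))) ∈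
      box (Subalgebra.toSubmodule H') (Subalgebra.toSubmodule H') := by
  unfold box at *
  induction hF using Submodule.span_induction with
  | mem F hF =>
    obtain ⟨f, hf, g, hg, rfl⟩ := hF
    refine Submodule.subset_span ⟨_, hH f hf, _, hH g hg, ?_⟩
    funext p
    simp [star]
  | zero =>
    have : (fun p : V × V => τ ((0 : V × V → Qb) (act τ⁻¹ p.1, act τ⁻¹ p.2))) = 0 := by
      funext p; simp
    rw [this]; exact zero_mem _
  | add x y _ _ hx hy =>
    have : (fun p : V × V => τ ((x + y) (act τ⁻¹ p.1, act τ⁻¹ p.2))) =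
        (fun p : V × V => τ (x (act τ⁻¹ p.1, act τ⁻¹ p.2))) +
          (fun p : V × V => τ (y (act τ⁻¹ p.1, act τ⁻¹ p.2))) := by
      funext p; simp
    rw [this]; exact add_mem hx hy
  | smul a x _ hx =>
    have : (fun p : V × V => τ ((a • x) (act τ⁻¹ p.1, act τ⁻¹ p.2))) =
        (⟨τ a, apply_mem_of_mem_decomposition hτ a.2⟩ : A) •
          (fun p : V × V => τ (x (act τ⁻¹ p.1, act τ⁻¹ p.2))) := by
      funext p
      simp only [Pi.smul_apply]
      change τ ((a : Qb) * _) = τ (a : Qb) * _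
      rw [map_mul]
    rw [this]; exact Submodule.smul_mem _ _ hx

/-- **[DESC-HULL]** -/
theorem IsHopfOrderA.hull {H : Subalgebra A (V → Qb)} (h : IsHopfOrderA A act H) :
    IsHopfOrderA A act (hull act A H) := by
  refine ⟨?_, ?_, ?_, ?_⟩
  · intro f hf
    induction hf using Algebra.adjoin_induction with
    | mem g hg =>
      obtain ⟨τ, hτ, f, hf, rfl⟩ := hg
      intro x
      exact apply_mem_of_mem_decomposition hτ (h.integral f hf _)
    | algebraMap a => intro x; exact a.2
    | add f g _ _ hf hg => intro x; exact add_mem (hf x) (hg x)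
    | mul f g _ _ hf hg => intro x; exact mul_mem (hf x) (hg x)
  · rw [eq_top_iff, ← h.span_top]
    exact Submodule.span_mono (le_hull H)
  · refine comulClosed_adjoin _ ?_
    rintro g ⟨τ, hτ, f, hf, rfl⟩
    have h1 := star2_mem_box (act := act) (H' := FLAT.hull act A H) hτ
      (fun f hf => star_mem_hull H hτ (le_hull H hf)) (h.comul f hf)
    have h2 : (fun p : V × V => star act τ f (p.1 + p.2)) =
        (fun p : V × V => τ ((fun p : V × V => f (p.1 + p.2)) (act τ⁻¹ p.1, act τ⁻¹ p.2))) := by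
      funext p
      simp [star]
    rw [h2]
    exact h1
  · obtain ⟨𝒢, hH, h𝒢⟩ := h.gen
    refine ⟨{g | ∃ τ ∈ A.decompositionSubgroup ℚ, ∃ f ∈ 𝒢, g = star act τ f}, ?_, ?_⟩
    · apply le_antisymm
      · refine Algebra.adjoin_le ?_
        rintro g ⟨τ, hτ, f, hf, rfl⟩
        rw [hH] at hf
        induction hf using Algebra.adjoin_induction with
        | mem g hg => exact Algebra.subset_adjoin ⟨τ, hτ, g, hg, rfl⟩
        | algebraMap a =>
          rw [star_algebraMap τ hτ]
          exact Subalgebra.algebraMap_mem _ _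
        | add f g _ _ hf hg =>
          rw [star_add]; exact add_mem hf hg
        | mul f g _ _ hf hg =>
          rw [star_mul_fun]; exact mul_mem hf hg
      · refine Algebra.adjoin_mono ?_
        rintro g ⟨τ, hτ, f, hf, rfl⟩
        exact ⟨τ, hτ, f, hH ▸ Algebra.subset_adjoin hf, rfl⟩
    · rintro g ⟨τ, hτ, f, hf, rfl⟩ σ hσ
      rw [isEquiv_iff_star_eq, ← star_mul]
      have h1 := h𝒢 f hf _ (conj_mem_inertia hσ hτ)
      rw [isEquiv_iff_star_eq] at h1
      calc star act (σ * τ) f = star act (τ * (τ⁻¹ * σ * τ)) f := by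
            congr 1; group
        _ = star act τ f := by rw [star_mul, h1]

/-- an algebra generated by inertia-equivariant functions is spanned by such functions. -/
theorem IsHopfOrderA.span_inertia {H : Subalgebra A (V → Qb)} (h : IsHopfOrderA A act H) :
    Subalgebra.toSubmodule H =
      Submodule.span A {f | f ∈ H ∧ ∀ σ ∈ A.inertiaSubgroupIn ℚ, IsEquiv act σ f} := by
  apply le_antisymm
  · obtain ⟨𝒢, hH, h𝒢⟩ := h.gen
    conv_lhs => rw [hH, Algebra.adjoin_eq_span]
    refine Submodule.span_mono ?_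
    intro f hf
    replace hf : f ∈ Submonoid.closure 𝒢 := hf
    induction hf using Submonoid.closure_induction with
    | mem g hg => exact ⟨hH ▸ Algebra.subset_adjoin hg, h𝒢 g hg⟩
    | one =>
      refine ⟨one_mem _, fun σ _ x => ?_⟩
      simp
    | mul f g _ _ hf' hg' =>
      obtain ⟨h1, h2⟩ := hf'
      obtain ⟨h3, h4⟩ := hg'
      refine ⟨mul_mem h1 h3, fun σ hσ x => ?_⟩
      simp only [Pi.mul_apply, map_mul]
      rw [h2 σ hσ x, h4 σ hσ x]
  · refine Submodule.span_le.2 ?_
    rintro f ⟨hf, -⟩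
    exact hf

/-- the conductor of an order. -/
theorem IsHopfOrderA.exists_conductor [Finite V] {ℓ : ℕ} [Fact ℓ.Prime] (hA : A.LiesOverPrime ℓ)
    {H : Subalgebra A (V → Qb)} (h : IsHopfOrderA A act H) :
    ∃ n : ℕ, ∀ f : V → Qb, (∀ x, f x ∈ A) → ((ℓ : Qb) ^ n) • f ∈ H := by
  classical
  have hℓ : (ℓ : Qb) ∈ A := natCast_mem A ℓ
  have key : ∀ g : V → Qb, ∃ n : ℕ, ((ℓ : Qb) ^ n) • g ∈ H := by
    intro g
    have hg : g ∈ Submodule.span Qb (H : Set (V → Qb)) := by rw [h.span_top]; trivial
    induction hg using Submodule.span_induction with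
    | mem g hg => exact ⟨0, by simpa using hg⟩
    | zero => exact ⟨0, by simp⟩
    | add x y _ _ hx hy =>
      obtain ⟨n, hn⟩ := hx
      obtain ⟨m, hm⟩ := hy
      refine ⟨n + m, ?_⟩
      have : ((ℓ : Qb) ^ (n + m)) • (x + y) =
          ((ℓ : Qb) ^ m) • (((ℓ : Qb) ^ n) • x) + ((ℓ : Qb) ^ n) • (((ℓ : Qb) ^ m) • y) := by
        rw [smul_smul, smul_smul, smul_add, pow_add, mul_comm]
      rw [this]
      exact add_mem (smul_mem_of_mem H (pow_mem hℓ m) hn) (smul_mem_of_mem H (pow_mem hℓ n) hm)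
    | smul c x _ hx =>
      obtain ⟨n, hn⟩ := hx
      obtain ⟨k, hk⟩ := exists_pow_mul_mem hA c
      refine ⟨k + n, ?_⟩
      have : ((ℓ : Qb) ^ (k + n)) • (c • x) = ((ℓ : Qb) ^ k * c) • (((ℓ : Qb) ^ n) • x) := by
        rw [smul_smul, smul_smul, pow_add]
        congr 1; ring
      rw [this]
      exact smul_mem_of_mem H hk hn
  have := Fintype.ofFinite V
  choose n hn using fun x : V => key (Pi.single x 1)
  refine ⟨∑ x, n x, fun f hf => ?_⟩
  have hf' : f = ∑ x, f x • (Pi.single x 1 : V → Qb) := by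
    funext y
    simp [Finset.sum_apply, Pi.single_apply]
  rw [hf', Finset.smul_sum]
  refine Subalgebra.sum_mem _ (fun x _ => ?_)
  have hle : n x ≤ ∑ x, n x := Finset.single_le_sum (f := n) (fun _ _ => Nat.zero_le _)
    (Finset.mem_univ x)
  obtain ⟨m, hm⟩ := Nat.exists_eq_add_of_le hle
  have : ((ℓ : Qb) ^ (∑ x, n x)) • (f x • (Pi.single x 1 : V → Qb)) =
      ((ℓ : Qb) ^ m * f x) • (((ℓ : Qb) ^ n x) • (Pi.single x 1 : V → Qb)) := by
    rw [smul_smul, smul_smul, hm, pow_add]
    congr 1; ring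
  rw [this]
  exact smul_mem_of_mem H (mul_mem (pow_mem hℓ m) (hf x)) (hn x)

end Fermat.Agent.FLAT
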