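import Fermat.Agent.FLAT.Desc.Frob
import Fermat.Agent.FLAT.Desc.Teich

/-!
# FLAT / [UD1] : unramified descent `I_A → D_A`

`f` inertia-equivariant, `φ` a Frobenius, `d > 0` with `φ^d ⋆ f = f` (`exists_level`; `φ` has finite
order on a finite normal extension), `ζ` as in `exists_teichmuller`;
`h_i := ∑_{a<d} ζ^(i ℓ^a) • (φ^a ⋆ f)`, `i < d`, is equivariant under `I_A`, `φ` and an open subgroup,
hence under `D_A` (`exists_decomp_factor`); the Vandermonde matrix `(ζ^(i ℓ^a))` is invertible over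
`A` (`Matrix.det_vandermonde`, the differences of the nodes are units), so `f` (the term `a = 0`) is
an `A`-linear combination of the `h_i`.
-/

set_option autoImplicit false
set_option linter.unusedSectionVars false

noncomputable section

namespace Fermat.Agent.FLAT

variable {ℓ : ℕ} [Fact ℓ.Prime] {A : ValuationSubring Qb}
variable {V : Type} [AddCommGroup V] [Finite V] {act : GQ →* AddMonoid.End V}

namespace UD1

/-- inertia is normal in the decomposition group. -/
theorem conj_mem_inertia {δ ι : GQ} (hδ : δ ∈ A.decompositionSubgroup ℚ)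
    (hι : ι ∈ A.inertiaSubgroupIn ℚ) : δ⁻¹ * ι * δ ∈ A.inertiaSubgroupIn ℚ := by
  obtain ⟨x, hx, rfl⟩ := Subgroup.mem_map.1 hι
  refine Subgroup.mem_map.2 ⟨(⟨δ, hδ⟩ : A.decompositionSubgroup ℚ)⁻¹ * x * ⟨δ, hδ⟩, ?_, rfl⟩
  have hn : (A.inertiaSubgroup ℚ).Normal := by
    unfold ValuationSubring.inertiaSubgroup
    infer_instance
  have := hn.conj_mem x hx (⟨δ, hδ⟩ : A.decompositionSubgroup ℚ)⁻¹
  simpa using this

/-- some positive power of any automorphism fixes a given finite extension pointwise. -/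
theorem exists_pow_fix (φ : GQ) (L : IntermediateField ℚ Qb) [FiniteDimensional ℚ L] :
    ∃ d : ℕ, 0 < d ∧ ∀ y ∈ L, (φ ^ d) y = y := by
  let r : ℕ → (L →ₐ[ℚ] Qb) := fun k => ((φ ^ k : GQ) : Qb →ₐ[ℚ] Qb).comp L.val
  obtain ⟨a, b, hab, h⟩ := Finite.exists_ne_map_eq_of_infinite r
  wlog hlt : a < b generalizing a b
  · exact this b a hab.symm h.symm (lt_of_le_of_ne (not_lt.1 hlt) hab.symm)
  refine ⟨b - a, by omega, fun y hy => ?_⟩
  have h1 : (φ ^ a) y = (φ ^ b) y := DFunLike.congr_fun h (⟨y, hy⟩ : L)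
  have h2 : φ ^ b = φ ^ a * φ ^ (b - a) := by rw [← pow_add]; congr 1; omega
  rw [h2, AlgEquiv.mul_apply] at h1
  exact ((φ ^ a).injective h1).symm


theorem star_zero (σ : GQ) : star act σ (0 : V → Qb) = 0 := by
  have h := star_smul act σ 0 (0 : V → Qb)
  simpa using h

theorem star_sum {ι : Type*} (σ : GQ) (s : Finset ι) (t : ι → V → Qb) :
    star act σ (∑ i ∈ s, t i) = ∑ i ∈ s, star act σ (t i) := by
  classical
  induction s using Finset.induction_on with
  | empty => simp [star_zero]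
  | insert a s ha ih => rw [Finset.sum_insert ha, Finset.sum_insert ha, star_add, ih]

theorem isEquiv_pow {σ : GQ} {f : V → Qb} (h : IsEquiv act σ f) (n : ℕ) :
    IsEquiv act (σ ^ n) f := by
  induction n with
  | zero =>
    rw [pow_zero, isEquiv_iff_star_eq, star_one]
  | succ n ih =>
    rw [pow_succ]
    exact IsEquiv.mul_elt act ih h

theorem mem_of_pow_eq_one {ζ : Qb} {m : ℕ} (hm : 0 < m) (h : ζ ^ m = 1) : ζ ∈ A := by
  rw [← A.valuation_le_one_iff]
  have h1 : A.valuation ζ ^ m = 1 := by rw [← map_pow, h, map_one]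
  exact ((pow_eq_one_iff_of_nonneg zero_le hm.ne').1 h1).le

end UD1

/-- **[UD1]** -/
theorem mem_span_decomp (hA : A.LiesOverPrime ℓ) (hs : SmoothAct act)
    (H : Submodule A (V → Qb))
    (hstab : ∀ τ ∈ A.decompositionSubgroup ℚ, ∀ f ∈ H, star act τ f ∈ H)
    {f : V → Qb} (hf : f ∈ H) (hfI : ∀ ι ∈ A.inertiaSubgroupIn ℚ, IsEquiv act ι f) :
    f ∈ Submodule.span A {h | h ∈ H ∧ ∀ τ ∈ A.decompositionSubgroup ℚ, IsEquiv act τ h} := by
  classical
  obtain ⟨φ, hφ⟩ := exists_frobenius hA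
  have hφD : φ ∈ A.decompositionSubgroup ℚ := hφ.mem_decompositionSubgroup
  obtain ⟨L, hL, hLf⟩ := exists_level act hs f
  obtain ⟨d, hd, hdL⟩ := UD1.exists_pow_fix φ L
  have hfd : star act (φ ^ d) f = f := (isEquiv_iff_star_eq act _ f).1 (hLf _ hdL)
  obtain ⟨ζ, hζ1, hζI, hζφ, hζne⟩ := exists_teichmuller hA hφ d hd
  have hℓ : 2 ≤ ℓ := (Fact.out : ℓ.Prime).two_le
  have hℓd : 2 ≤ ℓ ^ d := le_trans hℓ (Nat.le_self_pow hd.ne' ℓ)
  have hζA : ζ ∈ A := UD1.mem_of_pow_eq_one (m := ℓ ^ d - 1) (by omega) hζ1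
  have hζd : ζ ^ (ℓ ^ d) = ζ := by
    have : ℓ ^ d = (ℓ ^ d - 1) + 1 := by omega
    rw [this, pow_succ, hζ1, one_mul]
  -- the conjugates of `f`
  set g : ℕ → V → Qb := fun a => star act (φ ^ a) f with hg
  have hgH : ∀ a, g a ∈ H := fun a => hstab _ (Subgroup.pow_mem _ hφD a) f hf
  have hgφ : ∀ a, star act φ (g a) = g (a + 1) := by
    intro a
    simp only [hg]
    rw [← star_mul, ← pow_succ']
  have hg0 : g 0 = f := by
    simp only [hg]
    rw [pow_zero, star_one]
  have hgd : g d = g 0 := by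
    rw [hg0]; exact hfd
  have hgI : ∀ a, ∀ ι ∈ A.inertiaSubgroupIn ℚ, star act ι (g a) = g a := by
    intro a ι hι
    simp only [hg]
    have h1 := UD1.conj_mem_inertia (Subgroup.pow_mem _ hφD a) hι
    have h2 : ι * φ ^ a = φ ^ a * ((φ ^ a)⁻¹ * ι * φ ^ a) := by group
    rw [← star_mul, h2, star_mul, (isEquiv_iff_star_eq act _ f).1 (hfI _ h1)]
  -- the nodes
  set x : ℕ → Qb := fun a => ζ ^ (ℓ ^ a) with hx
  have hxA : ∀ a, x a ∈ A := fun a => A.pow_mem hζA _
  have hxφ : ∀ a, φ (x a) = x (a + 1) := by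
    intro a
    simp only [hx]
    rw [map_pow, hζφ, ← pow_mul, ← pow_succ']
  have hxI : ∀ a, ∀ ι ∈ A.inertiaSubgroupIn ℚ, ι (x a) = x a := by
    intro a ι hι
    simp only [hx]
    rw [map_pow, hζI ι hι]
  have hxd : x d = x 0 := by
    simp only [hx]
    rw [hζd, pow_zero, pow_one]
  -- the descended functions
  set h : ℕ → V → Qb := fun i => ∑ a ∈ Finset.range d, (x a ^ i) • g a with hh
  have hhH : ∀ i, h i ∈ H := by
    intro i
    apply Submodule.sum_mem
    intro a _
    exact H.smul_mem (⟨x a ^ i, A.pow_mem (hxA a) i⟩ : A) (hgH a)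
  have hhφ : ∀ i, star act φ (h i) = h i := by
    intro i
    simp only [hh]
    rw [UD1.star_sum]
    have h1 : ∀ a ∈ Finset.range d, star act φ ((x a ^ i) • g a) = (x (a + 1) ^ i) • g (a + 1) := by
      intro a _
      rw [star_smul, map_pow, hxφ, hgφ]
    rw [Finset.sum_congr rfl h1]
    have h2 := Finset.sum_range_succ (fun a => (x a ^ i) • g a) d
    have h3 := Finset.sum_range_succ' (fun a => (x a ^ i) • g a) d
    rw [h2, hxd, hgd] at h3
    exact (add_right_cancel h3).symm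
  have hhI : ∀ i, ∀ ι ∈ A.inertiaSubgroupIn ℚ, star act ι (h i) = h i := by
    intro i ι hι
    simp only [hh]
    rw [UD1.star_sum]
    refine Finset.sum_congr rfl fun a _ => ?_
    rw [star_smul, map_pow, hxI a ι hι, hgI a ι hι]
  have hhD : ∀ i, ∀ τ ∈ A.decompositionSubgroup ℚ, IsEquiv act τ (h i) := by
    intro i τ hτ
    obtain ⟨L', hL', hLh⟩ := exists_level act hs (h i)
    obtain ⟨n, ι, u, hι, hu, rfl⟩ := exists_decomp_factor hA hφ L' hτ
    exact IsEquiv.mul_elt act
      (IsEquiv.mul_elt act ((isEquiv_iff_star_eq act _ _).2 (hhI i ι hι)) (hLh u hu))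
      (UD1.isEquiv_pow ((isEquiv_iff_star_eq act _ _).2 (hhφ i)) n)
  -- Vandermonde
  let xA : Fin d → A := fun a => ⟨x a, hxA a⟩
  let M : Matrix (Fin d) (Fin d) A := Matrix.vandermonde xA
  have hdet : IsUnit M.det := by
    rw [Matrix.det_vandermonde]
    rw [IsUnit.prod_iff]
    intro i _
    rw [IsUnit.prod_iff]
    intro j hj
    rw [A.valuation_eq_one_iff]
    have hij : i < j := Finset.mem_Ioi.1 hj
    exact hζne j i j.2 i.2 (by
      intro h0
      exact hij.ne' (Fin.ext h0))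
  have hMM : M * M⁻¹ = 1 := Matrix.mul_nonsing_inv M hdet
  let z : Fin d := ⟨0, hd⟩
  let c : Fin d → A := fun i => M⁻¹ i z
  have hc : ∀ a : Fin d, ∑ i : Fin d, (x a ^ (i : ℕ)) * (c i : Qb) = if a = z then 1 else 0 := by
    intro a
    have h1 := congrFun (congrFun hMM a) z
    rw [Matrix.mul_apply, Matrix.one_apply] at h1
    have h2 := congrArg (fun y : A => (y : Qb)) h1
    simp only [M, Matrix.vandermonde_apply] at h2
    push_cast at h2
    rw [h2]
    split_ifs <;> simp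
  have hfin : f = ∑ i : Fin d, c i • h i := by
    funext y
    rw [Finset.sum_apply]
    have h1 : ∀ i : Fin d, (c i • h i) y = ∑ a : Fin d, ((x a ^ (i : ℕ)) * (c i : Qb)) * g a y := by
      intro i
      show (c i : Qb) * h i y = _
      simp only [hh]
      rw [Finset.sum_apply, Finset.sum_range, Finset.mul_sum]
      refine Finset.sum_congr rfl fun a _ => ?_
      show (c i : Qb) * (x a ^ (i : ℕ) * g a y) = _
      ring
    rw [Finset.sum_congr rfl fun i _ => h1 i, Finset.sum_comm]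
    simp_rw [← Finset.sum_mul, hc]
    simp [z, hg0]
  rw [hfin]
  apply Submodule.sum_mem
  intro i _
  exact Submodule.smul_mem _ _ (Submodule.subset_span ⟨hhH i, hhD i⟩)

end Fermat.Agent.FLAT
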